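import Mathlib

/-!
# Boston–Lenstra–Ribet: quotients of group rings arising from two-dimensional representations
(helper223, row RIBET, piece P2 = (R1))

Let `k` be a field with `2 ≠ 0`, `G` a group, `ρ : G →* E` with `k[G] → E` surjective
(`E = M₂(k)`: `ρ` absolutely irreducible), `τ : E → k` a linear "trace", `d : G →* k` a
"determinant" with `ρ g ^ 2 - τ (ρ g) ρ g + d g = 0`.  If `π : G →* B` satisfies the same quadratic
relations `π g ^ 2 - τ (ρ g) π g + d g = 0`, then `π` factors through `ρ`: there is an algebra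
homomorphism `Ψ : E →ₐ[k] B` with `Ψ (ρ g) = π g`.
-/

set_option autoImplicit false

namespace Fermat.Agent.Lib.Ribet.H223

section abstract

variable {k : Type*} [Field k] {A E B : Type*} [Ring A] [Algebra k A] [Ring E] [Algebra k E]
  [Ring B] [Algebra k B]

/-- **Abstract core.**  `A` carries an anti-multiplicative map `σ` which both `P` and `Q` turn
into `u ↦ T u - u`, the "trace" `T` factors through `P`, and `E` has two elements whose
commutator squares to `1`.  Then `ker P ⊆ ker Q`. -/
theorem ker_le_ker_of_antiInvolution (hk2 : (2 : k) ≠ 0) (P : A →ₐ[k] E) (Q : A →ₐ[k] B)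
    (T : A → k) (σ : A → A) (hσmul : ∀ u v, σ (u * v) = σ v * σ u)
    (hσQ : ∀ u, Q (σ u) = algebraMap k B (T u) - Q u)
    (hT : ∀ u, P u = 0 → T u = 0) (hsurj : Function.Surjective P)
    (hcomm : ∃ y z : E, (y * z - z * y) * (y * z - z * y) = 1) :
    ∀ u, P u = 0 → Q u = 0 := by
  -- Step 1
  have step1 : ∀ u, P u = 0 → ∀ v, Q u * Q v = Q (σ v) * Q u := by
    intro u hu v
    have huv : P (u * v) = 0 := by rw [map_mul, hu, zero_mul]
    have h1 : Q (σ (u * v)) = - (Q u * Q v) := by
      rw [hσQ, hT _ huv, map_zero, zero_sub, map_mul]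
    have h2 : Q (σ (u * v)) = - (Q (σ v) * Q u) := by
      rw [hσmul, map_mul, hσQ u, hT u hu, map_zero, zero_sub, mul_neg]
    exact neg_injective (h1.symm.trans h2)
  -- Step 2
  have step2 : ∀ u, P u = 0 → ∀ v w, Q u * Q (v * w - w * v) = 0 := by
    intro u hu v w
    have h1 : Q u * Q (v * w) = Q u * Q w * Q v := by
      rw [step1 u hu (v * w), hσmul, map_mul, mul_assoc, ← step1 u hu v, ← mul_assoc,
        ← step1 u hu w]
    have h2 : Q u * Q (w * v) = Q u * Q w * Q v := by rw [map_mul, mul_assoc]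
    rw [map_sub, mul_sub, h1, h2, sub_self]
  obtain ⟨y, z, hyz⟩ := hcomm
  obtain ⟨v, rfl⟩ := hsurj y
  obtain ⟨w, rfl⟩ := hsurj z
  set c : A := (v * w - w * v) * (v * w - w * v) with hc
  have hPc : P c = 1 := by
    rw [hc, map_mul, map_sub, map_mul, map_mul]
    exact hyz
  have hκ : P (c - 1) = 0 := by rw [map_sub, hPc, map_one, sub_self]
  have huc : ∀ u, P u = 0 → Q u * Q c = 0 := by
    intro u hu
    rw [hc, map_mul, ← mul_assoc, step2 u hu v w, zero_mul]
  -- `Q κ = 0`
  have h3 : Q (c - 1) * Q (c - 1) = - (Q (c - 1) * Q (c - 1)) := by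
    have := step1 (c - 1) hκ (c - 1)
    rw [hσQ, hT _ hκ, map_zero, zero_sub, neg_mul] at this
    exact this
  have h4 : Q (c - 1) * Q (c - 1) = 0 := by
    have h5 : (2 : k) • (Q (c - 1) * Q (c - 1)) = 0 := by
      rw [two_smul]
      nth_rewrite 1 [h3]
      exact neg_add_cancel _
    exact (smul_eq_zero.mp h5).resolve_left hk2
  have h6 : Q (c - 1) = 0 := by
    have h7 := huc (c - 1) hκ
    have h8 : Q c = Q (c - 1) + 1 := by rw [map_sub, map_one, sub_add_cancel]
    rw [h8, mul_add, h4, zero_add, mul_one] at h7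
    exact h7
  have hQc : Q c = 1 := by
    have h8 : Q c = Q (c - 1) + 1 := by rw [map_sub, map_one, sub_add_cancel]
    rw [h8, h6, zero_add]
  intro u hu
  have := huc u hu
  rwa [hQc, mul_one] at this

/-- A surjective algebra homomorphism `P` and an algebra homomorphism `Q` with
`ker P ⊆ ker Q` give an algebra homomorphism `E →ₐ[k] B`. -/
noncomputable def liftOfKerLe (P : A →ₐ[k] E) (Q : A →ₐ[k] B) (hsurj : Function.Surjective P)
    (hker : ∀ u, P u = 0 → Q u = 0) : E →ₐ[k] B :=
  have key : ∀ u v, P u = P v → Q u = Q v := fun u v h => by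
    have := hker (u - v) (by rw [map_sub, h, sub_self])
    rwa [map_sub, sub_eq_zero] at this
  { toFun := fun e => Q (Function.surjInv hsurj e)
    map_one' := by
      rw [← map_one Q]
      exact key _ _ (by rw [Function.surjInv_eq hsurj, map_one])
    map_mul' := fun x y => by
      rw [← map_mul Q]
      exact key _ _ (by rw [map_mul, Function.surjInv_eq hsurj, Function.surjInv_eq hsurj,
        Function.surjInv_eq hsurj])
    map_zero' := by
      rw [← map_zero Q]
      exact key _ _ (by rw [Function.surjInv_eq hsurj, map_zero])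
    map_add' := fun x y => by
      rw [← map_add Q]
      exact key _ _ (by rw [map_add, Function.surjInv_eq hsurj, Function.surjInv_eq hsurj,
        Function.surjInv_eq hsurj])
    commutes' := fun r => by
      rw [← AlgHom.commutes Q r]
      exact key _ _ (by rw [Function.surjInv_eq hsurj, AlgHom.commutes]) }

theorem liftOfKerLe_apply (P : A →ₐ[k] E) (Q : A →ₐ[k] B) (hsurj : Function.Surjective P)
    (hker : ∀ u, P u = 0 → Q u = 0) (u : A) : liftOfKerLe P Q hsurj hker (P u) = Q u := by
  have := hker (Function.surjInv hsurj (P u) - u)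
    (by rw [map_sub, Function.surjInv_eq hsurj, sub_self])
  rw [map_sub, sub_eq_zero] at this
  exact this

end abstract

section groupRing

variable {k : Type*} [Field k] {G : Type*} [Group G] {E B : Type*} [Ring E] [Algebra k E]
  [Ring B] [Algebra k B]

/-- `g ↦ d(g) g⁻¹`, as a monoid homomorphism into the opposite of the group algebra. -/
noncomputable def conjHom (d : G →* k) : G →* (MonoidAlgebra k G)ᵐᵒᵖ where
  toFun g := MulOpposite.op (MonoidAlgebra.single g⁻¹ (d g))
  map_one' := by
    rw [inv_one, map_one]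
    rfl
  map_mul' g h := by
    rw [← MulOpposite.op_mul, MonoidAlgebra.single_mul_single, mul_inv_rev, map_mul, mul_comm]

/-- The anti-involution `∑ a_g g ↦ ∑ a_g d(g) g⁻¹` of `k[G]`. -/
noncomputable def conj (d : G →* k) (u : MonoidAlgebra k G) : MonoidAlgebra k G :=
  MulOpposite.unop (MonoidAlgebra.lift k (MonoidAlgebra k G)ᵐᵒᵖ G (conjHom d) u)

theorem conj_mul (d : G →* k) (u v : MonoidAlgebra k G) :
    conj d (u * v) = conj d v * conj d u := by
  unfold conj
  rw [map_mul, MulOpposite.unop_mul]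

theorem conj_add (d : G →* k) (u v : MonoidAlgebra k G) :
    conj d (u + v) = conj d u + conj d v := by
  unfold conj
  rw [map_add, MulOpposite.unop_add]

theorem conj_smul (d : G →* k) (r : k) (u : MonoidAlgebra k G) :
    conj d (r • u) = r • conj d u := by
  unfold conj
  rw [map_smul, MulOpposite.unop_smul]

theorem conj_of (d : G →* k) (g : G) :
    conj d (MonoidAlgebra.of k G g) = MonoidAlgebra.single g⁻¹ (d g) := by
  unfold conj
  rw [MonoidAlgebra.lift_of]
  rfl

/-- `Q ∘ conj = T - Q` when the quadratic relations hold. -/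
theorem lift_conj (π : G →* B) (d : G →* k) (t : G → k)
    (hπ : ∀ g, π g * π g - t g • π g + d g • 1 = 0)
    (T : MonoidAlgebra k G →ₗ[k] k) (hT : ∀ g, T (MonoidAlgebra.of k G g) = t g)
    (u : MonoidAlgebra k G) :
    MonoidAlgebra.lift k B G π (conj d u) =
      algebraMap k B (T u) - MonoidAlgebra.lift k B G π u := by
  induction u using MonoidAlgebra.induction_on with
  | of g =>
    rw [conj_of, MonoidAlgebra.lift_single, MonoidAlgebra.lift_of, hT, Algebra.algebraMap_eq_smul_one]
    have h1 := hπ g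
    have h2 : (π g * π g - t g • π g + d g • 1) * π g⁻¹ = 0 := by rw [h1, zero_mul]
    have h3 : π g * π g⁻¹ = 1 := by rw [← map_mul, mul_inv_cancel, map_one]
    rw [add_mul, sub_mul, mul_assoc, h3, mul_one, smul_mul_assoc, h3, smul_mul_assoc,
      one_mul] at h2
    rw [← sub_eq_zero, ← h2]
    abel
  | add x y hx hy =>
    simp only [conj_add, map_add, hx, hy]
    abel
  | smul r x hx =>
    simp only [conj_smul, map_smul, hx, smul_sub, smul_eq_mul, map_mul]
    rw [Algebra.smul_def]

/-- **Boston–Lenstra–Ribet**, kernel form. -/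
theorem blr_ker (hk2 : (2 : k) ≠ 0) (ρ : G →* E) (π : G →* B) (d : G →* k) (τ : E →ₗ[k] k)
    (hπ : ∀ g, π g * π g - τ (ρ g) • π g + d g • 1 = 0)
    (hsurj : Function.Surjective (MonoidAlgebra.lift k E G ρ))
    (hcomm : ∃ y z : E, (y * z - z * y) * (y * z - z * y) = 1) :
    ∀ u, MonoidAlgebra.lift k E G ρ u = 0 → MonoidAlgebra.lift k B G π u = 0 := by
  have hT : ∀ g, (τ ∘ₗ (MonoidAlgebra.lift k E G ρ).toLinearMap) (MonoidAlgebra.of k G g) =
      τ (ρ g) := by
    intro g
    rw [LinearMap.comp_apply, AlgHom.toLinearMap_apply, MonoidAlgebra.lift_of]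
  refine ker_le_ker_of_antiInvolution hk2 (MonoidAlgebra.lift k E G ρ)
    (MonoidAlgebra.lift k B G π)
    (fun u => (τ ∘ₗ (MonoidAlgebra.lift k E G ρ).toLinearMap) u) (conj d) (conj_mul d)
    ?_ ?_ hsurj hcomm
  · intro u
    exact lift_conj π d (fun g => τ (ρ g)) hπ _ hT u
  · intro u hu
    rw [LinearMap.comp_apply, AlgHom.toLinearMap_apply, hu, map_zero]

/-- **Boston–Lenstra–Ribet**: `π` factors through `ρ`. -/
theorem blr_exists_algHom (hk2 : (2 : k) ≠ 0) (ρ : G →* E) (π : G →* B) (d : G →* k)
    (τ : E →ₗ[k] k) (hπ : ∀ g, π g * π g - τ (ρ g) • π g + d g • 1 = 0)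
    (hsurj : Function.Surjective (MonoidAlgebra.lift k E G ρ))
    (hcomm : ∃ y z : E, (y * z - z * y) * (y * z - z * y) = 1) :
    ∃ Ψ : E →ₐ[k] B, (∀ u, Ψ (MonoidAlgebra.lift k E G ρ u) = MonoidAlgebra.lift k B G π u) ∧
      ∀ g, Ψ (ρ g) = π g := by
  have hker := blr_ker hk2 ρ π d τ hπ hsurj hcomm
  refine ⟨liftOfKerLe _ _ hsurj hker, fun u => liftOfKerLe_apply _ _ hsurj hker u, fun g => ?_⟩
  have := liftOfKerLe_apply _ _ hsurj hker (MonoidAlgebra.of k G g)
  rwa [MonoidAlgebra.lift_of, MonoidAlgebra.lift_of] at this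

end groupRing

section endo

variable {k : Type*} [Field k] {G : Type*} [Group G] {W₀ V : Type*} [AddCommGroup W₀]
  [Module k W₀] [AddCommGroup V] [Module k V]

/-- In `M₂(k)` there are two elements whose commutator squares to `1`. -/
theorem exists_commutator_sq_eq_one_matrix :
    ∃ y z : Matrix (Fin 2) (Fin 2) k, (y * z - z * y) * (y * z - z * y) = 1 := by
  refine ⟨!![0, 1; 0, 0], !![0, 0; 1, 0], ?_⟩
  ext i j
  fin_cases i <;> fin_cases j <;> simp [Matrix.mul_apply, Fin.sum_univ_two]

/-- In `End(W₀)`, `dim W₀ = 2`, there are two elements whose commutator squares to `1`. -/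
theorem exists_commutator_sq_eq_one (h : Module.finrank k W₀ = 2) :
    ∃ y z : Module.End k W₀, (y * z - z * y) * (y * z - z * y) = 1 := by
  have : Module.Finite k W₀ := Module.finite_of_finrank_eq_succ h
  let b : Module.Basis (Fin 2) k W₀ := Module.finBasisOfFinrankEq k W₀ h
  let e := LinearMap.toMatrixAlgEquiv b
  obtain ⟨y, z, hyz⟩ := exists_commutator_sq_eq_one_matrix (k := k)
  refine ⟨e.symm y, e.symm z, ?_⟩
  rw [← map_mul, ← map_mul, ← map_sub, ← map_mul, hyz, map_one]

/-- **Boston–Lenstra–Ribet**, embedding form: if every `g` satisfies on `V ≠ 0` the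
characteristic polynomial of `ρ g` (`ρ` two-dimensional with `k[G] → End W₀` surjective), then
`ρ` embeds into `V`. -/
theorem blr_exists_embedding (hk2 : (2 : k) ≠ 0) (h2 : Module.finrank k W₀ = 2)
    (ρ : G →* Module.End k W₀) (π : G →* Module.End k V) (d : G →* k)
    (hsurj : Function.Surjective (MonoidAlgebra.lift k (Module.End k W₀) G ρ))
    (hπ : ∀ g, π g * π g - LinearMap.trace k W₀ (ρ g) • π g + d g • 1 = 0) [Nontrivial V] :
    ∃ φ : W₀ →ₗ[k] V, Function.Injective φ ∧ ∀ g w, φ (ρ g w) = π g (φ w) := by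
  classical
  have hfin : Module.Finite k W₀ := Module.finite_of_finrank_eq_succ h2
  obtain ⟨Ψ, hΨ, hΨg⟩ := blr_exists_algHom hk2 ρ π d (LinearMap.trace k W₀) hπ hsurj
    (exists_commutator_sq_eq_one h2)
  let b : Module.Basis (Fin 2) k W₀ := Module.finBasisOfFinrankEq k W₀ h2
  -- `a i w` is the endomorphism `x ↦ (i-th coordinate of x) • w`
  let a : Fin 2 → W₀ →ₗ[k] Module.End k W₀ := fun i =>
    { toFun := fun w => (b.coord i).smulRight w
      map_add' := fun w w' => by
        ext x
        simp only [LinearMap.smulRight_apply, LinearMap.add_apply, smul_add]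
      map_smul' := fun r w => by
        ext x
        simp only [LinearMap.smulRight_apply, LinearMap.smul_apply, RingHom.id_apply]
        exact smul_comm _ _ _ }
  have ha_apply : ∀ i w x, a i w x = b.coord i x • w := fun i w x => rfl
  have hsum : a 0 (b 0) + a 1 (b 1) = 1 := by
    apply b.ext
    intro j
    fin_cases j <;> simp [ha_apply]
  obtain ⟨v, hv⟩ := exists_ne (0 : V)
  have hex : ∃ i, Ψ (a i (b i)) v ≠ 0 := by
    by_contra hcon
    push Not at hcon
    apply hv
    have h1 : Ψ (a 0 (b 0) + a 1 (b 1)) v = v := by rw [hsum, map_one]; rfl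
    rw [map_add, LinearMap.add_apply, hcon 0, hcon 1, add_zero] at h1
    exact h1.symm
  obtain ⟨i, hi⟩ := hex
  set v₁ := Ψ (a i (b i)) v with hv₁
  let φ : W₀ →ₗ[k] V :=
    { toFun := fun w => Ψ (a i w) v₁
      map_add' := fun w w' => by rw [map_add, map_add, LinearMap.add_apply]
      map_smul' := fun r w => by
        rw [map_smul, map_smul, LinearMap.smul_apply, RingHom.id_apply] }
  have hφ : ∀ w, φ w = Ψ (a i w) v₁ := fun w => rfl
  have hidem : a i (b i) * a i (b i) = a i (b i) := by
    apply LinearMap.ext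
    intro x
    simp [ha_apply]
  have hφb : φ (b i) = v₁ := by
    rw [hφ, hv₁, ← Module.End.mul_apply, ← map_mul, hidem]
  have hcomp : ∀ (f : Module.End k W₀) (w : W₀), a i (f w) = f * a i w := by
    intro f w
    apply LinearMap.ext
    intro x
    simp [ha_apply]
  have hequiv : ∀ (f : Module.End k W₀) (w : W₀), φ (f w) = Ψ f (φ w) := by
    intro f w
    rw [hφ, hφ, hcomp, map_mul, Module.End.mul_apply]
  refine ⟨φ, ?_, fun g w => ?_⟩
  · rw [← LinearMap.ker_eq_bot, Submodule.eq_bot_iff]
    intro w hw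
    by_contra hw0
    rw [LinearMap.mem_ker] at hw
    -- some coordinate of `w` is nonzero
    have hcoord : ∃ j, b.coord j w ≠ 0 := by
      by_contra hcon
      push Not at hcon
      apply hw0
      apply b.ext_elem
      intro j
      rw [map_zero, Finsupp.zero_apply]
      exact hcon j
    obtain ⟨j, hj⟩ := hcoord
    have h1 : (a j ((b.coord j w)⁻¹ • b i)) w = b i := by
      rw [ha_apply, smul_smul, mul_inv_cancel₀ hj, one_smul]
    have h2 := hequiv (a j ((b.coord j w)⁻¹ • b i)) w
    rw [h1, hφb, hw, map_zero] at h2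
    exact hi h2
  · rw [hequiv, hΨg]

end endo

end Fermat.Agent.Lib.Ribet.H223
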