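import Mathlib
import Fermat.Agent.S29.H872.Burnside

/-!
# Burnside for two-dimensional odd representations over an arbitrary field (helper223, RIBET P2)

If `ρ : G → GL(W₀)`, `dim W₀ = 2`, `2 ≠ 0` in `k`, is irreducible over `k` and some `c ∈ G` acts as
an involution `≠ ± 1` (complex conjugation for an odd representation), then `k[G] → End_k(W₀)` is
surjective.  No algebraic closedness is needed.
-/

set_option autoImplicit false

namespace Fermat.Agent.Lib.Ribet.H223

open Module Fermat.Agent.S29.H872

variable {k : Type*} [Field k] {U : Type*} [AddCommGroup U] [Module k U]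

/-- Burnside's theorem from the Schur property `End_A(U) = k`. -/
theorem burnside_of_schur (A : Subalgebra k (Module.End k U)) [FiniteDimensional k U]
    [Nontrivial U]
    (hirr : ∀ W : Submodule k U, (∀ a ∈ A, W ≤ W.comap a) → W = ⊥ ∨ W = ⊤)
    (hschur : ∀ e : Module.End A U, ∃ c : k, ∀ u, e u = c • u) : A = ⊤ := by
  have : IsSimpleModule A U := isSimpleModule_of_irr A hirr
  have : Module.Finite (Module.End A U) U :=
    Module.Finite.of_restrictScalars_finite k (Module.End A U) U
  have hdens := Module.Finite.toModuleEnd_moduleEnd_surjective (R := A) (M := U)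
  rw [eq_top_iff]
  intro f _
  let f' : Module.End (Module.End A U) U :=
    { toFun := f
      map_add' := f.map_add
      map_smul' := fun e u => by
        obtain ⟨c, hc⟩ := hschur e
        simp only [Module.End.smul_def, RingHom.id_apply, hc, map_smul] }
  obtain ⟨a, ha⟩ := hdens f'
  have : (a : Module.End k U) = f := by
    ext u
    have := congrArg (fun g : Module.End (Module.End A U) U => g u) ha
    have h2 : a • u = f u := by simpa [f'] using this
    exact h2
  rw [← this]
  exact a.2

/-- Schur property from an involution `C ∈ A`, `C ≠ ± 1`, in dimension two. -/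
theorem schur_of_involution (h2 : Module.finrank k U = 2)
    (A : Subalgebra k (Module.End k U))
    (hirr : ∀ W : Submodule k U, (∀ a ∈ A, W ≤ W.comap a) → W = ⊥ ∨ W = ⊤)
    (C : Module.End k U) (hCA : C ∈ A) (hC : C * C = 1) (hC1 : C ≠ 1) (hC2 : C ≠ -1) :
    ∀ e : Module.End A U, ∃ c : k, ∀ u, e u = c • u := by
  have hfin : Module.Finite k U := Module.finite_of_finrank_eq_succ h2
  have hnt : Nontrivial U := Module.nontrivial_of_finrank_pos (R := k) (by rw [h2]; norm_num)
  have hsimple : IsSimpleModule A U := isSimpleModule_of_irr A hirr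
  intro e
  -- an eigenvector of `C` for the eigenvalue `1`
  have hex : ∃ x, (C + 1) x ≠ 0 := by
    by_contra hcon
    push Not at hcon
    apply hC2
    apply LinearMap.ext
    intro x
    have := hcon x
    rw [LinearMap.add_apply, Module.End.one_apply] at this
    rw [LinearMap.neg_apply, Module.End.one_apply]
    exact eq_neg_of_add_eq_zero_left this
  obtain ⟨x, hx⟩ := hex
  set w := (C + 1) x with hw
  have hCw : C w = w := by
    rw [hw, LinearMap.add_apply, Module.End.one_apply, map_add, ← Module.End.mul_apply, hC,
      Module.End.one_apply, add_comm]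
  -- the eigenspace is a line
  let K₁ : Submodule k U := LinearMap.ker (C - 1)
  have hwK : w ∈ K₁ := by
    rw [LinearMap.mem_ker, LinearMap.sub_apply, Module.End.one_apply, hCw, sub_self]
  have hK1 : K₁ ≠ ⊤ := by
    intro htop
    apply hC1
    apply LinearMap.ext
    intro u
    have : u ∈ K₁ := htop ▸ Submodule.mem_top
    rw [LinearMap.mem_ker, LinearMap.sub_apply, sub_eq_zero] at this
    exact this
  have hrank : Module.finrank k K₁ = 1 := by
    have hlt : Module.finrank k K₁ < Module.finrank k U := Submodule.finrank_lt hK1
    have hpos : 0 < Module.finrank k K₁ := by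
      rw [Module.finrank_pos_iff_exists_ne_zero]
      exact ⟨⟨w, hwK⟩, fun h => hx (congrArg Subtype.val h)⟩
    omega
  -- `e w ∈ K₁`
  have heC : ∀ u, e (C u) = C (e u) := by
    intro u
    have := e.map_smul (⟨C, hCA⟩ : A) u
    exact this
  have hewK : e w ∈ K₁ := by
    rw [LinearMap.mem_ker, LinearMap.sub_apply, Module.End.one_apply, ← heC, hCw, sub_self]
  have hspan := (finrank_eq_one_iff_of_nonzero' (⟨w, hwK⟩ : K₁)
    (fun h => hx (congrArg Subtype.val h))).mp hrank ⟨e w, hewK⟩
  obtain ⟨α, hα⟩ := hspan
  have hα' : α • w = e w := congrArg Subtype.val hα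
  -- `e - α` kills `w`, hence is zero
  let g : Module.End A U := e - algebraMap k (Module.End A U) α
  have hgw : g w = 0 := by
    change e w - (algebraMap k (Module.End A U) α) w = 0
    rw [Module.algebraMap_end_apply, hα', sub_self]
  have hg0 : g = 0 := by
    rcases LinearMap.bijective_or_eq_zero g with hbij | h0
    · exact absurd (hbij.1 (hgw.trans (map_zero g).symm)) hx
    · exact h0
  refine ⟨α, fun u => ?_⟩
  have := congrArg (fun f : Module.End A U => f u) hg0
  change e u - (algebraMap k (Module.End A U) α) u = 0 at this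
  rw [Module.algebraMap_end_apply, sub_eq_zero] at this
  exact this

/-- **Burnside in dimension two, odd case**: an irreducible two-dimensional representation in
which some group element acts as an involution `≠ ± 1` generates the full endomorphism algebra. -/
theorem lift_surjective_of_involution {G : Type*} [Group G] (h2 : Module.finrank k U = 2)
    (ρ : G →* Module.End k U)
    (hirr : ∀ W : Submodule k U, (∀ g, W ≤ W.comap (ρ g)) → W = ⊥ ∨ W = ⊤)
    (c : G) (hc : ρ c * ρ c = 1) (hc1 : ρ c ≠ 1) (hc2 : ρ c ≠ -1) :
    Function.Surjective (MonoidAlgebra.lift k (Module.End k U) G ρ) := by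
  have hfin : Module.Finite k U := Module.finite_of_finrank_eq_succ h2
  have hnt : Nontrivial U := Module.nontrivial_of_finrank_pos (R := k) (by rw [h2]; norm_num)
  set A : Subalgebra k (Module.End k U) := (MonoidAlgebra.lift k (Module.End k U) G ρ).range
    with hA
  have hρA : ∀ g, ρ g ∈ A := fun g => ⟨MonoidAlgebra.of k G g, MonoidAlgebra.lift_of ρ g⟩
  have hirrA : ∀ W : Submodule k U, (∀ a ∈ A, W ≤ W.comap a) → W = ⊥ ∨ W = ⊤ :=
    fun W hW => hirr W (fun g => hW _ (hρA g))
  have htop : A = ⊤ :=
    burnside_of_schur A hirrA (schur_of_involution h2 A hirrA (ρ c) (hρA c) hc hc1 hc2)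
  rw [← AlgHom.range_eq_top]
  exact htop

end Fermat.Agent.Lib.Ribet.H223
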