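import Mathlib

/-!
# Quadratic relations and powers (helper223, RIBET P2)

If `x ^ 2 - t x + d = 0` then `x ^ j` satisfies `X ^ 2 - T_j X + d ^ j`, where
`T_0 = 2, T_1 = t, T_{j+2} = t T_{j+1} - d T_j`; for an endomorphism `f` of a two-dimensional space
`tr (f ^ j) = T_j (tr f, det f)`.
-/

set_option autoImplicit false

namespace Fermat.Agent.Lib.Ribet.H223

/-- The power sums `α ^ j + β ^ j` of the roots of `X ^ 2 - t X + d`. -/
def lucasT {k : Type*} [CommRing k] (t d : k) : ℕ → k
  | 0 => 2
  | 1 => t
  | (j + 2) => t * lucasT t d (j + 1) - d * lucasT t d j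

section

variable {k : Type*} [CommRing k] {B : Type*} [Ring B] [Algebra k B]

theorem lucasT_zero (t d : k) : lucasT t d 0 = 2 := rfl

theorem lucasT_one (t d : k) : lucasT t d 1 = t := rfl

theorem lucasT_succ_succ (t d : k) (j : ℕ) :
    lucasT t d (j + 2) = t * lucasT t d (j + 1) - d * lucasT t d j := rfl

/-- `x ^ j + (t - x) ^ j = T_j`. -/
theorem pow_add_conj_pow {x : B} {t d : k} (h : x * x - t • x + d • 1 = 0) (j : ℕ) :
    x ^ j + (t • 1 - x) ^ j = lucasT t d j • (1 : B) := by
  have hcomm : Commute x (t • 1 - x) :=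
    ((Commute.one_right x).smul_right t).sub_right (Commute.refl x)
  have hprod : x * (t • 1 - x) = d • 1 := by
    rw [mul_sub, mul_smul_comm, mul_one]
    rw [eq_comm, ← sub_eq_zero, ← h]
    abel
  induction j using Nat.strong_induction_on with
  | _ j ih =>
    match j, ih with
    | 0, _ =>
      rw [pow_zero, pow_zero, lucasT_zero, two_smul]
    | 1, _ =>
      rw [pow_one, pow_one, lucasT_one]
      abel
    | (j + 2), ih =>
      have h1 := ih (j + 1) (by omega)
      have h0 := ih j (by omega)
      -- `(x + x̄)(x^{j+1} + x̄^{j+1}) = x^{j+2} + x̄^{j+2} + x x̄ (x^j + x̄^j)`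
      have key : (x + (t • 1 - x)) * (x ^ (j + 1) + (t • 1 - x) ^ (j + 1)) =
          x ^ (j + 2) + (t • 1 - x) ^ (j + 2) +
            (x * (t • 1 - x)) * (x ^ j + (t • 1 - x) ^ j) := by
        have e1 : x * (t • 1 - x) ^ (j + 1) = (x * (t • 1 - x)) * (t • 1 - x) ^ j := by
          rw [pow_succ', mul_assoc]
        have e2 : (t • 1 - x) * x ^ (j + 1) = (x * (t • 1 - x)) * x ^ j := by
          rw [pow_succ', ← mul_assoc, hcomm.eq]
        rw [add_mul, mul_add, mul_add, e1, e2, mul_add, ← pow_succ', ← pow_succ']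
        abel
      have hsum : x + (t • 1 - x) = t • (1 : B) := by abel
      rw [hsum, h1, hprod, h0] at key
      rw [smul_mul_smul_comm, smul_mul_smul_comm, one_mul] at key
      rw [lucasT_succ_succ, sub_smul, eq_sub_iff_add_eq]
      exact key.symm

/-- If `x ^ 2 - t x + d = 0` then `(x ^ j) ^ 2 - T_j x ^ j + d ^ j = 0`. -/
theorem pow_quadratic {x : B} {t d : k} (h : x * x - t • x + d • 1 = 0) (j : ℕ) :
    x ^ j * x ^ j - lucasT t d j • x ^ j + (d ^ j) • 1 = 0 := by
  have hcomm : Commute x (t • 1 - x) :=
    ((Commute.one_right x).smul_right t).sub_right (Commute.refl x)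
  have hprod : x * (t • 1 - x) = d • 1 := by
    rw [mul_sub, mul_smul_comm, mul_one]
    rw [eq_comm, ← sub_eq_zero, ← h]
    abel
  have h1 := pow_add_conj_pow h j
  have h2 : (t • 1 - x) ^ j * x ^ j = (d ^ j) • 1 := by
    rw [← (hcomm.symm.mul_pow j), hcomm.symm.eq, hprod, smul_pow, one_pow]
  have h3 : lucasT t d j • x ^ j = (x ^ j + (t • 1 - x) ^ j) * x ^ j := by
    rw [h1, smul_mul_assoc, one_mul]
  rw [h3, add_mul, h2]
  abel

end

section dimTwo

variable {k : Type*} [Field k] {W : Type*} [AddCommGroup W] [Module k W]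

/-- Cayley–Hamilton in dimension two. -/
theorem cayley_hamilton_two (h2 : Module.finrank k W = 2) (f : Module.End k W) :
    f * f - LinearMap.trace k W f • f + LinearMap.det f • 1 = 0 := by
  classical
  have hfin : Module.Finite k W := Module.finite_of_finrank_eq_succ h2
  let b : Module.Basis (Fin 2) k W := Module.finBasisOfFinrankEq k W h2
  let e := LinearMap.toMatrixAlgEquiv b
  apply e.injective
  rw [map_zero, map_add, map_sub, map_mul, map_smul, map_smul, map_one]
  have htr : LinearMap.trace k W f = (e f).trace :=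
    LinearMap.trace_eq_matrix_trace k b f
  have hdet : LinearMap.det f = (e f).det := (LinearMap.det_toMatrix b f).symm
  rw [htr, hdet]
  have hch := Matrix.aeval_self_charpoly (e f)
  rw [Matrix.charpoly_fin_two] at hch
  simp only [map_add, map_sub, map_mul, map_pow, Polynomial.aeval_X, Polynomial.aeval_C] at hch
  rw [← hch, pow_two, Algebra.algebraMap_eq_smul_one, Algebra.algebraMap_eq_smul_one,
    smul_mul_assoc, one_mul]

/-- `tr (f ^ j) = T_j (tr f, det f)` in dimension two. -/
theorem trace_pow_two (hk2 : Module.finrank k W = 2) (f : Module.End k W) (j : ℕ) :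
    LinearMap.trace k W (f ^ j) = lucasT (LinearMap.trace k W f) (LinearMap.det f) j := by
  have hfin : Module.Finite k W := Module.finite_of_finrank_eq_succ hk2
  have hch := cayley_hamilton_two hk2 f
  induction j using Nat.strong_induction_on with
  | _ j ih =>
    match j, ih with
    | 0, _ =>
      rw [pow_zero, lucasT_zero, LinearMap.trace_one, hk2]
      norm_num
    | 1, _ =>
      rw [pow_one, lucasT_one]
    | (j + 2), ih =>
      have h1 := ih (j + 1) (by omega)
      have h0 := ih j (by omega)
      have key : f ^ (j + 2) =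
          LinearMap.trace k W f • f ^ (j + 1) - LinearMap.det f • f ^ j := by
        have e1 : f ^ (j + 2) = (f * f) * f ^ j := by rw [← pow_two, ← pow_add, add_comm]
        have e2 : f * f = LinearMap.trace k W f • f - LinearMap.det f • 1 := by
          rw [eq_sub_iff_add_eq, ← sub_eq_zero]
          rw [← hch]
          abel
        rw [e1, e2, sub_mul, smul_mul_assoc, smul_mul_assoc, one_mul, ← pow_succ']
      rw [key, map_sub, map_smul, map_smul, h1, h0, lucasT_succ_succ, smul_eq_mul, smul_eq_mul]

/-- `det (f ^ j) = (det f) ^ j`. -/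
theorem det_pow_two (f : Module.End k W) (j : ℕ) :
    LinearMap.det (f ^ j) = LinearMap.det f ^ j := map_pow _ f j

end dimTwo

end Fermat.Agent.Lib.Ribet.H223
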