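import Mathlib
import Fermat.Agent.Lib.Ribet.H223.BLRCore
import Fermat.Agent.Lib.Ribet.H223.Burnside2
import Fermat.Agent.Lib.Ribet.H223.PowQuad
import Fermat.Agent.Lib.Cheb.H476.Clients

/-!
# Boston–Lenstra–Ribet for odd two-dimensional Galois representations (helper223, RIBET P2 = R1)

* `blr_odd` : group-theoretic form (all `g` satisfy the quadratic relation).
* `blr_frobenius` : Galois form, the quadratic relation is only assumed for Frobenius elements at
  primes outside a finite set `S` (uses `Lib/Cheb` Tier 1, Frobenius division).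
-/

set_option autoImplicit false

namespace Fermat.Agent.Lib.Ribet.H223

open Fermat.Agent.Lib.Cheb.Spec

/-- **BLR, odd irreducible case.**  `ρ` two-dimensional irreducible over `k` (`2 ≠ 0`), some `c`
acts as an involution `≠ ± 1`; every `g` satisfies on `V ≠ 0` the characteristic polynomial of
`ρ g`.  Then `ρ` embeds `G`-equivariantly into `V`. -/
theorem blr_odd {k : Type*} [Field k] {G : Type*} [Group G] {W₀ V : Type*} [AddCommGroup W₀]
    [Module k W₀] [AddCommGroup V] [Module k V] (hk2 : (2 : k) ≠ 0)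
    (h2 : Module.finrank k W₀ = 2) (ρ : G →* Module.End k W₀) (π : G →* Module.End k V)
    (hirr : ∀ W : Submodule k W₀, (∀ g, W ≤ W.comap (ρ g)) → W = ⊥ ∨ W = ⊤)
    (c : G) (hc : ρ c * ρ c = 1) (hc1 : ρ c ≠ 1) (hc2 : ρ c ≠ -1)
    (hπ : ∀ g, π g * π g - LinearMap.trace k W₀ (ρ g) • π g + LinearMap.det (ρ g) • 1 = 0)
    [Nontrivial V] :
    ∃ φ : W₀ →ₗ[k] V, Function.Injective φ ∧ ∀ g w, φ (ρ g w) = π g (φ w) := by
  let d : G →* k := (LinearMap.det : Module.End k W₀ →* k).comp ρ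
  exact blr_exists_embedding hk2 h2 ρ π d
    (lift_surjective_of_involution h2 ρ hirr c hc hc1 hc2) hπ

/-- **BLR, Galois form.**  As `blr_odd` for `G = Gal(ℚ̄/ℚ)`, `ρ` and `π` factoring through finite
levels, with the quadratic relation assumed only for Frobenius elements at primes outside a
finite set `S`. -/
theorem blr_frobenius {k : Type} [Field k] {W₀ V : Type} [AddCommGroup W₀]
    [Module k W₀] [AddCommGroup V] [Module k V] (hk2 : (2 : k) ≠ 0)
    (h2 : Module.finrank k W₀ = 2) (ρ : GQ →* Module.End k W₀) (π : GQ →* Module.End k V)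
    (hρfin : GaloisFactorsThroughFiniteLevel ρ) (hπfin : GaloisFactorsThroughFiniteLevel π)
    (hirr : ∀ W : Submodule k W₀, (∀ g, W ≤ W.comap (ρ g)) → W = ⊥ ∨ W = ⊤)
    (c : GQ) (hc : ρ c * ρ c = 1) (hc1 : ρ c ≠ 1) (hc2 : ρ c ≠ -1) (S : Finset ℕ)
    (hfrob : ∀ (ℓ : ℕ) (A : ValuationSubring Qb) (τ : GQ), ℓ.Prime → ℓ ∉ S →
      A.LiesOverPrime ℓ → A.IsFrobeniusAt τ ℓ →
      π τ * π τ - LinearMap.trace k W₀ (ρ τ) • π τ + LinearMap.det (ρ τ) • 1 = 0)
    [Nontrivial V] :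
    ∃ φ : W₀ →ₗ[k] V, Function.Injective φ ∧ ∀ g w, φ (ρ g w) = π g (φ w) := by
  refine blr_odd hk2 h2 ρ π hirr c hc hc1 hc2 (fun g => ?_)
  obtain ⟨ℓ, A, τ, _, j, hℓ, hℓS, hA, hτ, -, ⟨-, hρj⟩, ⟨-, hπj⟩⟩ :=
    Fermat.Agent.Lib.Cheb.H476.exists_frobenius_division_map₂ ρ π hρfin hπfin g S
  have h1 := pow_quadratic (hfrob ℓ A τ hℓ hℓS hA hτ) j
  rw [hρj, hπj, trace_pow_two h2, det_pow_two]
  exact h1

end Fermat.Agent.Lib.Ribet.H223
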